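import Mathlib

/-!
# An Artin--Rees statement for a commutative ring acting on a lattice

If `H` acts on a finite free `ℤ`-module `L`, there is `a` such that every `δ : H` with
`δ L ⊆ p^(K+a) L` acts on `L` as `p^K δ'` for some `δ' : H`.
-/

set_option autoImplicit false

namespace Fermat.Agent.GAL.S31

variable {L : Type*} [AddCommGroup L] [Module.Free ℤ L] [Module.Finite ℤ L]
  {H : Type*} [Ring H]

theorem exists_artinRees (actL : H →+* Module.End ℤ L) (p : ℕ) :
    ∃ a : ℕ, ∀ (K : ℕ) (δ : H), (∀ x : L, ∃ y : L, actL δ x = (p ^ (K + a) : ℤ) • y) →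
      ∃ δ' : H, actL (δ - (p : H) ^ K * δ') = 0 := by
  classical
  let E : Submodule ℤ (Module.End ℤ L) := LinearMap.range actL.toAddMonoidHom.toIntLinearMap
  obtain ⟨a, ha⟩ := Ideal.exists_pow_inf_eq_pow_smul (Ideal.span {(p : ℤ)}) E
  refine ⟨a, fun K δ hδ => ?_⟩
  have h1 : actL δ ∈ Ideal.span {(p : ℤ)} ^ (K + a) • (⊤ : Submodule ℤ (Module.End ℤ L)) := by
    rw [Ideal.span_singleton_pow, Submodule.ideal_span_singleton_smul,
      Submodule.mem_smul_pointwise_iff_exists]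
    let b := Module.Free.chooseBasis ℤ L
    choose z hz using fun j => hδ (b j)
    refine ⟨b.constr ℤ z, Submodule.mem_top, ?_⟩
    refine b.ext fun j => ?_
    rw [LinearMap.smul_apply, Module.Basis.constr_basis, hz]
  have h2 : actL δ ∈ E := ⟨δ, rfl⟩
  have h3 : actL δ ∈ Ideal.span {(p : ℤ)} ^ (K + a) • (⊤ : Submodule ℤ (Module.End ℤ L)) ⊓ E :=
    ⟨h1, h2⟩
  rw [ha (K + a) (Nat.le_add_left a K), Nat.add_sub_cancel] at h3
  have h4 : actL δ ∈ Ideal.span {(p : ℤ)} ^ K • E :=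
    Submodule.smul_mono le_rfl inf_le_right h3
  rw [Ideal.span_singleton_pow, Submodule.ideal_span_singleton_smul,
    Submodule.mem_smul_pointwise_iff_exists] at h4
  obtain ⟨_, ⟨δ', rfl⟩, h5⟩ := h4
  refine ⟨δ', ?_⟩
  rw [map_sub, map_mul, map_pow, map_natCast, ← h5, sub_eq_zero]
  ext x
  simp [Module.End.mul_apply, Module.End.pow_apply]

end Fermat.Agent.GAL.S31
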