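import Mathlib

/-!
# Dickson (Lucas) sequences

`dickson t d r` is `V_r(t,d)`: `V_0 = 2`, `V_1 = t`, `V_{r+2} = t V_{r+1} - d V_r`.
* `trace_pow_eq_dickson`: for an endomorphism `f` of a free module of rank two with characteristic
  polynomial `X^2 - a X + d`: `tr (f^r) = V_r(a,d)`.
* `pow_add_pow_eq_dickson`: in any ring, if `x y = y x = 1`, `d` central (an integer) and
  `x^2 - a x + d = 0` then `x^r + d^r y^r = V_r(a,d)`.
-/

set_option autoImplicit false

namespace Fermat.Agent.GAL.S31

open Polynomial

/-- The Lucas sequence `V_r(t,d)`. -/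
def dickson {R : Type*} [Ring R] (t d : R) : ℕ → R
  | 0 => 2
  | 1 => t
  | (r + 2) => t * dickson t d (r + 1) - d * dickson t d r

@[simp] theorem dickson_zero {R : Type*} [Ring R] (t d : R) : dickson t d 0 = 2 := rfl

@[simp] theorem dickson_one {R : Type*} [Ring R] (t d : R) : dickson t d 1 = t := rfl

theorem dickson_add_two {R : Type*} [Ring R] (t d : R) (r : ℕ) :
    dickson t d (r + 2) = t * dickson t d (r + 1) - d * dickson t d r := rfl

theorem map_dickson {R R' : Type*} [Ring R] [Ring R'] (f : R →+* R') (t d : R) (r : ℕ) :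
    f (dickson t d r) = dickson (f t) (f d) r := by
  induction r using Nat.twoStepInduction with
  | zero => rw [dickson_zero, dickson_zero, map_ofNat]
  | one => simp
  | more r h0 h1 => rw [dickson_add_two, dickson_add_two, map_sub, map_mul, map_mul, h0, h1]

/-- In any ring: `x` invertible with inverse `y`, `x^2 - a x + d = 0` with `d` an integer. -/
theorem pow_add_pow_eq_dickson {E : Type*} [Ring E] (x y a : E) (d : ℕ) (hxy : x * y = 1)
    (hyx : y * x = 1) (h : x * x - a * x + (d : E) = 0) (r : ℕ) :
    x ^ r + (d : E) ^ r * y ^ r = dickson a (d : E) r := by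
  have ha : a = x + (d : E) * y := by
    have h1 : (x * x - a * x + (d : E)) * y = 0 := by rw [h, zero_mul]
    rw [add_mul, sub_mul, mul_assoc, mul_assoc, hxy, mul_one, mul_one] at h1
    have : a = x + (d : E) * y - (x - a + (d : E) * y) := by abel
    rw [this, h1, sub_zero]
  have hc : Commute x y := by rw [Commute, SemiconjBy, hxy, hyx]
  have hdx : ∀ z : E, Commute (d : E) z := fun z => Nat.cast_commute d z
  induction r using Nat.twoStepInduction with
  | zero => simp; norm_num
  | one => simp [ha]
  | more r h0 h1 =>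
    rw [dickson_add_two, ← h0, ← h1, ha]
    have e1 : x * x ^ (r + 1) = x ^ (r + 2) := by rw [← pow_succ']
    have e2 : x * ((d : E) ^ (r + 1) * y ^ (r + 1)) = (d : E) * ((d : E) ^ r * y ^ r) := by
      rw [← mul_assoc, ((hdx x).pow_left (r + 1)).symm.eq, mul_assoc, pow_succ' y, ← mul_assoc x,
        hxy, one_mul, pow_succ', mul_assoc]
    have e3 : (d : E) * y * x ^ (r + 1) = (d : E) * x ^ r := by
      rw [mul_assoc, pow_succ', ← mul_assoc y, hyx, one_mul]
    have e4 : (d : E) * y * ((d : E) ^ (r + 1) * y ^ (r + 1)) = (d : E) ^ (r + 2) * y ^ (r + 2) := by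
      rw [mul_assoc, ← mul_assoc y, ((hdx y).pow_left (r + 1)).symm.eq, mul_assoc, ← pow_succ',
        ← mul_assoc, ← pow_succ']
    rw [add_mul, mul_add, mul_add, e1, e2, e3, e4, mul_add]
    abel

section Trace

variable {T : Type*} [CommRing T] [Nontrivial T] {V : Type*} [AddCommGroup V] [Module T V]
  [Module.Free T V] [Module.Finite T V]

theorem trace_eq_of_charpoly (hV : Module.finrank T V = 2) (f : Module.End T V) (a d : T)
    (hf : LinearMap.charpoly f = X ^ 2 - C a * X + C d) : LinearMap.trace T V f = a := by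
  classical
  let b : Module.Basis (Fin 2) T V := Module.finBasisOfFinrankEq T V hV
  rw [LinearMap.trace_eq_matrix_trace T b]
  have h1 := LinearMap.charpoly_toMatrix f b
  rw [Matrix.charpoly_fin_two, hf] at h1
  have h2 := congrArg (fun P => P.coeff 1) h1
  simp only [coeff_add, coeff_sub, coeff_X_pow, coeff_C_mul, coeff_X_one, coeff_C] at h2
  simpa using h2

theorem trace_pow_eq_dickson (hV : Module.finrank T V = 2) (f : Module.End T V) (a d : T)
    (hf : LinearMap.charpoly f = X ^ 2 - C a * X + C d) (r : ℕ) :
    LinearMap.trace T V (f ^ r) = dickson a d r := by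
  have hCH : f ^ 2 = a • f - d • (1 : Module.End T V) := by
    have h := LinearMap.aeval_self_charpoly f
    rw [hf] at h
    simp only [map_add, map_sub, map_mul, map_pow, aeval_X, aeval_C] at h
    rw [Algebra.algebraMap_eq_smul_one, Algebra.algebraMap_eq_smul_one, smul_mul_assoc,
      one_mul] at h
    have : f ^ 2 = (f ^ 2 - a • f + d • (1 : Module.End T V)) + (a • f - d • (1 : Module.End T V)) := by
      abel
    rw [this, h, zero_add]
  induction r using Nat.twoStepInduction with
  | zero =>
    rw [pow_zero, LinearMap.trace_one, hV]; simp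
  | one => rw [pow_one, dickson_one, trace_eq_of_charpoly hV f a d hf]
  | more r h0 h1 =>
    rw [dickson_add_two, ← h0, ← h1, pow_add, hCH, mul_sub, mul_smul_comm, mul_smul_comm, mul_one,
      ← pow_succ, map_sub, map_smul, map_smul, smul_eq_mul, smul_eq_mul]

end Trace

end Fermat.Agent.GAL.S31
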