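import Mathlib
import Fermat.Prelude.Def_EllipticCurve_FrobeniusTrace
import Fermat.Prelude.Def_FLTPrelim_Ramification

/-!
# Action of Frobenius lifts and inertia on roots of unity of order prime to the residue
characteristic

* `frobenius_apply_root` : a Frobenius lift at `A ∣ ℓ` sends `ζ` to `ζ ^ ℓ` if `ζ ^ n = 1`, `ℓ ∤ n`.
* `inertia_apply_root` : inertia at `A ∣ ℓ` fixes `ζ` if `ζ ^ n = 1`, `ℓ ∤ n`.
-/

set_option autoImplicit false

namespace Fermat.Agent.GAL.S31

variable {K L : Type*} [Field K] [Field L] [Algebra K L]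

theorem natCast_valuation_eq_one (A : ValuationSubring L) {ℓ : ℕ} (hℓ : ℓ.Prime)
    (hA : A.LiesOverPrime ℓ) {n : ℕ} (hn : ¬ ℓ ∣ n) : A.valuation (n : L) = 1 := by
  have hA' : A.valuation (ℓ : L) < 1 := (A.mem_nonunits_iff).mp hA
  have hle : ∀ m : ℤ, A.valuation (m : L) ≤ 1 := fun m =>
    (A.valuation_le_one_iff _).mpr (intCast_mem A m)
  refine le_antisymm ((A.valuation_le_one_iff _).mpr (natCast_mem A n)) (not_lt.mp fun hlt => ?_)
  have hcop : IsCoprime (ℓ : ℤ) (n : ℤ) :=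
    Nat.isCoprime_iff_coprime.mpr ((Nat.Prime.coprime_iff_not_dvd hℓ).mpr hn)
  obtain ⟨u, w, huw⟩ := hcop
  have h1 : ((u : L) * (ℓ : L) + (w : L) * (n : L)) = 1 := by
    have := congrArg (Int.cast : ℤ → L) huw
    push_cast at this
    exact this
  have h2 : A.valuation ((u : L) * (ℓ : L) + (w : L) * (n : L)) < 1 := by
    refine Valuation.map_add_lt _ ?_ ?_
    · rw [map_mul]; exact Right.mul_lt_one_of_le_of_lt (hle u) hA'
    · rw [map_mul]; exact Right.mul_lt_one_of_le_of_lt (hle w) hlt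
  rw [h1, map_one] at h2
  exact lt_irrefl _ h2

/-- A root of unity of order prime to the residue characteristic which is congruent to `1`
is equal to `1`. -/
theorem eq_one_of_pow_eq_one_of_valuation_sub_one_lt (A : ValuationSubring L) {n : ℕ}
    (hn : A.valuation (n : L) = 1) {ζ : L} (hζ : ζ ^ n = 1) (h1 : A.valuation (ζ - 1) < 1) :
    ζ = 1 := by
  by_contra hne
  have hζle : A.valuation ζ ≤ 1 := by
    have : ζ = (ζ - 1) + 1 := by ring
    rw [this]
    exact (Valuation.map_add_le _ h1.le (by rw [map_one]))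
  have hpow : ∀ j : ℕ, A.valuation (ζ ^ j - 1) < 1 := by
    intro j
    induction j with
    | zero => simp
    | succ j ih =>
      have : ζ ^ (j + 1) - 1 = ζ * (ζ ^ j - 1) + (ζ - 1) := by ring
      rw [this]
      refine Valuation.map_add_lt _ ?_ h1
      rw [map_mul]
      exact Right.mul_lt_one_of_le_of_lt hζle ih
  have hgeom : (∑ j ∈ Finset.range n, ζ ^ j) = 0 := by
    have h := geom_sum_mul ζ n
    rw [hζ, sub_self] at h
    exact (mul_eq_zero.mp h).resolve_right (sub_ne_zero.mpr hne)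
  have hsum : (n : L) = - ∑ j ∈ Finset.range n, (ζ ^ j - 1) := by
    rw [Finset.sum_sub_distrib, hgeom]
    simp
  have hlt : A.valuation (n : L) < 1 := by
    rw [hsum, Valuation.map_neg]
    exact Valuation.map_sum_lt _ one_ne_zero fun j _ => hpow j
  rw [hn] at hlt
  exact lt_irrefl _ hlt

theorem valuation_eq_one_of_pow_eq_one (A : ValuationSubring L) {n : ℕ} (hn : n ≠ 0) {ζ : L}
    (hζ : ζ ^ n = 1) : A.valuation ζ = 1 := by
  have h := congrArg A.valuation hζ
  rw [map_pow, map_one] at h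
  exact (pow_eq_one_iff_left hn).mp h

/-- Two roots of unity of order prime to the residue characteristic which are congruent are
equal. -/
theorem eq_of_pow_eq_one_of_valuation_sub_lt (A : ValuationSubring L) {n : ℕ}
    (hn : A.valuation (n : L) = 1) {ζ ξ : L} (hζ : ζ ^ n = 1) (hξ : ξ ^ n = 1)
    (h1 : A.valuation (ζ - ξ) < 1) : ζ = ξ := by
  have hn0 : n ≠ 0 := by
    rintro rfl
    simp at hn
  have hξ0 : ξ ≠ 0 := by
    rintro rfl
    rw [zero_pow hn0] at hξ
    exact zero_ne_one hξ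
  have hvξ := valuation_eq_one_of_pow_eq_one A hn0 hξ
  have h2 : ζ / ξ = 1 := by
    refine eq_one_of_pow_eq_one_of_valuation_sub_one_lt A hn (by rw [div_pow, hζ, hξ, div_one]) ?_
    have : ζ / ξ - 1 = (ζ - ξ) / ξ := by field_simp
    rw [this, map_div₀, hvξ, div_one]
    exact h1
  exact (div_eq_one_iff_eq hξ0).mp h2

theorem inertia_valuation_sub_lt (A : ValuationSubring L) {σ : L ≃ₐ[K] L}
    (hσ : σ ∈ A.inertiaSubgroupIn K) {x : L} (hx : A.valuation x ≤ 1) :
    A.valuation (σ x - x) < 1 := by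
  obtain ⟨τ, hτ, rfl⟩ := hσ
  rw [ValuationSubring.valuation_le_one_iff] at hx
  have h1 : MulSemiringAction.toRingAut (A.decompositionSubgroup K)
      (IsLocalRing.ResidueField A) τ = 1 := hτ
  have h2 : τ • IsLocalRing.residue A ⟨x, hx⟩ = IsLocalRing.residue A ⟨x, hx⟩ := by
    have := congrArg (fun f => f (IsLocalRing.residue A ⟨x, hx⟩)) h1
    simpa using this
  rw [← IsLocalRing.ResidueField.residue_smul] at h2
  have h3 : (τ • (⟨x, hx⟩ : A)) - ⟨x, hx⟩ ∈ IsLocalRing.maximalIdeal A := by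
    rw [← IsLocalRing.residue_eq_zero_iff, map_sub, h2, sub_self]
  rw [ValuationSubring.valuation_lt_one_iff] at h3
  exact h3

theorem frobenius_valuation_sub_lt (A : ValuationSubring L) {σ : L ≃ₐ[K] L} {ℓ : ℕ}
    (hσ : A.IsFrobeniusAt σ ℓ) {x : L} (hx : A.valuation x ≤ 1) :
    A.valuation (σ x - x ^ ℓ) < 1 := by
  rw [ValuationSubring.valuation_le_one_iff] at hx
  have h2 := hσ.smul_residue_eq (IsLocalRing.residue A ⟨x, hx⟩)
  rw [← IsLocalRing.ResidueField.residue_smul, ← map_pow] at h2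
  have h3 : ((⟨σ, hσ.mem_decompositionSubgroup⟩ : A.decompositionSubgroup K) • (⟨x, hx⟩ : A)) -
      (⟨x, hx⟩ : A) ^ ℓ ∈ IsLocalRing.maximalIdeal A := by
    rw [← IsLocalRing.residue_eq_zero_iff, map_sub, h2, sub_self]
  rw [ValuationSubring.valuation_lt_one_iff] at h3
  exact h3

theorem frobenius_apply_root (A : ValuationSubring L) {σ : L ≃ₐ[K] L} {ℓ : ℕ} (hℓ : ℓ.Prime)
    (hA : A.LiesOverPrime ℓ) (hσ : A.IsFrobeniusAt σ ℓ) {n : ℕ} (hn : ¬ ℓ ∣ n) {ζ : L}
    (hζ : ζ ^ n = 1) : σ ζ = ζ ^ ℓ := by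
  have hn0 : n ≠ 0 := by
    rintro rfl
    exact hn (dvd_zero _)
  refine eq_of_pow_eq_one_of_valuation_sub_lt A (natCast_valuation_eq_one A hℓ hA hn) ?_ ?_
    (frobenius_valuation_sub_lt A hσ (valuation_eq_one_of_pow_eq_one A hn0 hζ).le)
  · rw [← map_pow, hζ, map_one]
  · rw [← pow_mul, mul_comm, pow_mul, hζ, one_pow]

theorem inertia_apply_root (A : ValuationSubring L) {σ : L ≃ₐ[K] L} {ℓ : ℕ} (hℓ : ℓ.Prime)
    (hA : A.LiesOverPrime ℓ) (hσ : σ ∈ A.inertiaSubgroupIn K) {n : ℕ} (hn : ¬ ℓ ∣ n) {ζ : L}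
    (hζ : ζ ^ n = 1) : σ ζ = ζ := by
  have hn0 : n ≠ 0 := by
    rintro rfl
    exact hn (dvd_zero _)
  refine eq_of_pow_eq_one_of_valuation_sub_lt A (natCast_valuation_eq_one A hℓ hA hn) ?_ hζ
    (inertia_valuation_sub_lt A hσ (valuation_eq_one_of_pow_eq_one A hn0 hζ).le)
  rw [← map_pow, hζ, map_one]

end Fermat.Agent.GAL.S31
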