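import Mathlib
import Fermat.Prelude.Def_GaloisRep_Adic
import Fermat.Agent.S53.Burnside

/-!
# A representation with absolutely irreducible residual representation is determined by its trace

`rho_eq_one_of_trace`: if `tr ρ(g h) = tr ρ(h)` for all `h` then `ρ(g) = 1`.
(Burnside for the residual representation, Nakayama, non-degeneracy of the trace pairing.)
-/

set_option autoImplicit false

namespace Fermat.Agent.GAL.S31

open Module Matrix

local notation "Γℚ" => (AlgebraicClosure ℚ ≃ₐ[ℚ] AlgebraicClosure ℚ)

variable {A : Type} [CommRing A] [IsLocalRing A]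

omit [IsLocalRing A] in
/-- A matrix with all entries in `I` lies in `I • ⊤`. -/
theorem matrix_mem_smul_top (I : Ideal A) (X : Matrix (Fin 2) (Fin 2) A) (hX : ∀ i j, X i j ∈ I) :
    X ∈ I • (⊤ : Submodule A (Matrix (Fin 2) (Fin 2) A)) := by
  rw [Matrix.matrix_eq_sum_single X]
  refine Submodule.sum_mem _ fun i _ => Submodule.sum_mem _ fun j _ => ?_
  have : Matrix.single i j (X i j) = X i j • Matrix.single i j (1 : A) := by
    rw [Matrix.smul_single, smul_eq_mul, mul_one]
  rw [this]
  exact Submodule.smul_mem_smul (hX i j) Submodule.mem_top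

/-- The matrices of `ρ` span the full matrix algebra over the local ring. -/
theorem span_toMatrix_eq_top (ρ : GaloisRepAdic A) (habs : ρ.residual.IsAbsolutelyIrreducible)
    (b : Basis (Fin 2) A ρ.V) :
    Submodule.span A (Set.range fun g : Γℚ => LinearMap.toMatrix b b (ρ.ρ g)) = ⊤ := by
  classical
  set k := IsLocalRing.ResidueField A with hk
  let bk : Basis (Fin 2) k ρ.residual.V := Algebra.TensorProduct.basis k b
  have hM : ∀ g : Γℚ, Fermat.Agent.S53.matOfResidual ρ.residual bk g =
      (LinearMap.toMatrix b b (ρ.ρ g)).map (algebraMap A k) := fun g =>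
    LinearMap.toMatrix_baseChange k (ρ.ρ g) b b
  set N := Submodule.span A (Set.range fun g : Γℚ => LinearMap.toMatrix b b (ρ.ρ g)) with hN
  rw [eq_top_iff]
  refine Submodule.le_of_le_smul_of_le_jacobson_bot (I := IsLocalRing.maximalIdeal A)
    (Module.Finite.fg_top) ?_ ?_
  · rw [IsLocalRing.jacobson_eq_maximalIdeal ⊥ bot_ne_top]
  · intro X _
    obtain ⟨c, hc⟩ := Fermat.Agent.S53.exists_finsupp_matOfResidual ρ.residual habs bk
      (X.map (algebraMap A k))
    -- lift the coefficients
    choose lift hlift using (IsLocalRing.residue_surjective (R := A))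
    let Y : Matrix (Fin 2) (Fin 2) A :=
      c.sum fun g a => lift a • LinearMap.toMatrix b b (ρ.ρ g)
    have hY : Y ∈ N := by
      refine Submodule.sum_mem _ fun g _ => Submodule.smul_mem _ _ ?_
      exact Submodule.subset_span ⟨g, rfl⟩
    have hYmap : Y.map (algebraMap A k) = X.map (algebraMap A k) := by
      rw [← hc]
      ext i j
      simp only [Y, Finsupp.sum, Matrix.map_apply, Matrix.sum_apply, Matrix.smul_apply, map_sum,
        smul_eq_mul, map_mul, hM]
      refine Finset.sum_congr rfl fun g _ => ?_
      congr 1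
      exact hlift _
    have hXY : X - Y ∈ IsLocalRing.maximalIdeal A • (⊤ : Submodule A (Matrix (Fin 2) (Fin 2) A)) := by
      refine matrix_mem_smul_top _ _ fun i j => ?_
      rw [← IsLocalRing.residue_eq_zero_iff, Matrix.sub_apply, map_sub, sub_eq_zero]
      have := congrFun (congrFun hYmap i) j
      simp only [Matrix.map_apply] at this
      exact this.symm
    have : X = Y + (X - Y) := by abel
    rw [this]
    exact Submodule.add_mem_sup hY hXY

/-- If `tr ρ(g h) = tr ρ(h)` for all `h`, then `ρ(g) = 1`. -/
theorem rho_eq_one_of_trace (ρ : GaloisRepAdic A) (habs : ρ.residual.IsAbsolutelyIrreducible)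
    (g : Γℚ) (h : ∀ h : Γℚ, LinearMap.trace A ρ.V (ρ.ρ (g * h)) = LinearMap.trace A ρ.V (ρ.ρ h)) :
    ρ.ρ g = 1 := by
  classical
  let b : Basis (Fin 2) A ρ.V := Module.finBasisOfFinrankEq A ρ.V ρ.finrank_eq
  set X : Matrix (Fin 2) (Fin 2) A := LinearMap.toMatrix b b (ρ.ρ g) - 1 with hX
  have key : ∀ Y : Matrix (Fin 2) (Fin 2) A, (X * Y).trace = 0 := by
    intro Y
    have hY : Y ∈ Submodule.span A (Set.range fun g : Γℚ => LinearMap.toMatrix b b (ρ.ρ g)) :=
      span_toMatrix_eq_top ρ habs b ▸ Submodule.mem_top
    induction hY using Submodule.span_induction with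
    | mem y hy =>
      obtain ⟨h', rfl⟩ := hy
      have h1 := h h'
      rw [LinearMap.trace_eq_matrix_trace A b, LinearMap.trace_eq_matrix_trace A b, map_mul,
        LinearMap.toMatrix_mul] at h1
      simp only [hX, sub_mul, one_mul, Matrix.trace_sub, h1, sub_self]
    | zero => simp
    | add y z _ _ hy hz => rw [mul_add, Matrix.trace_add, hy, hz, add_zero]
    | smul c y _ hy => rw [Matrix.mul_smul, Matrix.trace_smul, hy, smul_zero]
  have hX0 : X = 0 := by
    ext i j
    have := key (Matrix.single j i 1)
    rw [Matrix.trace_mul_single] at this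
    simpa using this
  have h2 : LinearMap.toMatrix b b (ρ.ρ g) = LinearMap.toMatrix b b 1 := by
    rw [LinearMap.toMatrix_one]
    exact sub_eq_zero.mp hX0
  exact (LinearMap.toMatrix b b).injective h2

end Fermat.Agent.GAL.S31
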