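import Mathlib
import Fermat.Prelude.Def_GaloisRep_Adic
import Fermat.Agent.GAL.S31.TraceKernel
import Fermat.Agent.GAL.S31.Dickson
import Fermat.Agent.GAL.S31.RootsOfUnity
import Fermat.Agent.GAL.S31.ArtinRees

/-!
# Unramifiedness of a Hecke-valued Galois representation from an abstract Eichler--Shimura datum

`isUnramifiedAt_of_levelData`: let `ρ : G_ℚ → GL_2(T)` be a continuous representation with
absolutely irreducible residual representation such that the characteristic polynomial of every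
Frobenius lift at `ℓ ∉ S` is `X^2 - π(X_ℓ) X + ℓ`, where `π : H → T` is a ring homomorphism from a
commutative ring `H` acting on a lattice `L` with `ker (H → End L) ⊆ ker π`.  Assume that for
every `K` the `H`-module `L / p^K L` embeds into an abelian group with an action of `G_ℚ`,
unramified outside `S` and satisfying the Eichler--Shimura relation.  Then (assuming density of
Frobenius lifts) `ρ` is unramified outside `S`.
-/

set_option autoImplicit false

namespace Fermat.Agent.GAL.S31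

open Module Polynomial

local notation "Γℚ" => (AlgebraicClosure ℚ ≃ₐ[ℚ] AlgebraicClosure ℚ)

theorem isGalois_Qbar (inst : Algebra ℚ (AlgebraicClosure ℚ)) :
    @IsGalois ℚ _ (AlgebraicClosure ℚ) _ inst := by
  have h : inst = AlgebraicClosure.instAlgebra ℚ := Subsingleton.elim _ _
  rw [h]
  infer_instance

/-- Density of powers of Frobenius lifts (a weak form of Chebotarev). -/
def FrobDense (S : Finset ℕ) : Prop :=
  ∀ F : IntermediateField ℚ (AlgebraicClosure ℚ), FiniteDimensional ℚ F → ∀ g : Γℚ,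
    ∃ ℓ : ℕ, ℓ.Prime ∧ ℓ ∉ S ∧ ∃ A : ValuationSubring (AlgebraicClosure ℚ), A.LiesOverPrime ℓ ∧
      ∃ τ : Γℚ, A.IsFrobeniusAt τ ℓ ∧ ∃ r : ℕ, ∀ x ∈ F, g x = (τ ^ r) x

/-- The level `p^K` part of an abstract Eichler--Shimura datum. -/
structure LevelDatum (p : ℕ) (S : Finset ℕ) {H : Type} [Ring H] (X : ℕ → H)
    {L : Type} [AddCommGroup L] (actL : H →+* Module.End ℤ L) (K : ℕ) : Type 1 where
  W : Type
  [instW : AddCommGroup W]
  actH : H →+* Module.End ℤ W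
  actG : Γℚ →* Module.End ℤ W
  e : L →ₗ[ℤ] W
  e_actL : ∀ (t : H) (x : L), e (actL t x) = actH t (e x)
  ker_e : ∀ x : L, e x = 0 → ∃ y : L, x = (p ^ K : ℤ) • y
  pow_smul_e : ∀ x : L, (p ^ K : ℤ) • e x = 0
  open_stab : ∀ x : L, ∃ F : IntermediateField ℚ (AlgebraicClosure ℚ), FiniteDimensional ℚ F ∧
    ∀ σ : Γℚ, (∀ y ∈ F, σ y = y) → actG σ (e x) = e x
  inertia : ∀ q : ℕ, q.Prime → q ∉ S → ∀ P : ValuationSubring (AlgebraicClosure ℚ),
    P.LiesOverPrime q → ∀ σ ∈ P.inertiaSubgroupIn ℚ, actG σ = 1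
  frob : ∀ ℓ : ℕ, ℓ.Prime → ℓ ∉ S → ∀ A : ValuationSubring (AlgebraicClosure ℚ),
    A.LiesOverPrime ℓ → ∀ σ : Γℚ, A.IsFrobeniusAt σ ℓ →
      actG σ * actG σ - actH (X ℓ) * actG σ + (ℓ : Module.End ℤ W) = 0

attribute [instance] LevelDatum.instW

section TraceMem

variable {T : Type*} [CommRing T] {V : Type*} [AddCommGroup V] [Module T V]
  [Module.Free T V] [Module.Finite T V]

omit [Module.Free T V] [Module.Finite T V] in
theorem repr_mem_of_mem_smul_top {ι : Type*} (b : Basis ι T V) (I : Ideal T) {v : V}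
    (hv : v ∈ I • (⊤ : Submodule T V)) (j : ι) : b.repr v j ∈ I := by
  refine Submodule.smul_induction_on (p := fun v => b.repr v j ∈ I) hv ?_ ?_
  · intro a ha w _
    rw [map_smul, Finsupp.smul_apply, smul_eq_mul]
    exact I.mul_mem_right _ ha
  · intro x y hx hy
    rw [map_add, Finsupp.add_apply]
    exact I.add_mem hx hy

theorem trace_mem_of_forall_mem (I : Ideal T) (u : Module.End T V)
    (hu : ∀ v, u v ∈ I • (⊤ : Submodule T V)) : LinearMap.trace T V u ∈ I := by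
  classical
  let b := Module.Free.chooseBasis T V
  rw [LinearMap.trace_eq_matrix_trace T b, Matrix.trace]
  refine I.sum_mem fun j _ => ?_
  rw [Matrix.diag_apply, LinearMap.toMatrix_apply]
  exact repr_mem_of_mem_smul_top b I (hu _) j

end TraceMem

theorem frobenius_pow_apply_root (A : ValuationSubring (AlgebraicClosure ℚ)) {τ : Γℚ} {ℓ : ℕ}
    (hℓ : ℓ.Prime) (hA : A.LiesOverPrime ℓ) (hτ : A.IsFrobeniusAt τ ℓ) {n : ℕ} (hn : ¬ ℓ ∣ n)
    {ζ : AlgebraicClosure ℚ} (hζ : ζ ^ n = 1) (r : ℕ) : (τ ^ r) ζ = ζ ^ (ℓ ^ r) := by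
  induction r with
  | zero => simp
  | succ r ih =>
    rw [pow_succ, AlgEquiv.mul_apply, frobenius_apply_root A hℓ hA hτ hn hζ, map_pow, ih, ← pow_mul,
      ← pow_succ]

section Main

variable {T : Type} [CommRing T] [IsLocalRing T]
  {p : ℕ} {S : Finset ℕ} {H : Type} [Ring H] {X : ℕ → H}
  {L : Type} [AddCommGroup L] [Module.Free ℤ L] [Module.Finite ℤ L] {actL : H →+* Module.End ℤ L}

theorem exists_common_field {K : ℕ} (D : LevelDatum p S X actL K)
    (F₁ : IntermediateField ℚ (AlgebraicClosure ℚ)) [FiniteDimensional ℚ F₁] :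
    ∃ F : IntermediateField ℚ (AlgebraicClosure ℚ), FiniteDimensional ℚ F ∧ F₁ ≤ F ∧
      (∀ σ : Γℚ, ∀ x ∈ F, σ x ∈ F) ∧
      ∀ σ : Γℚ, (∀ y ∈ F, σ y = y) → ∀ x : L, D.actG σ (D.e x) = D.e x := by
  classical
  let b := Module.Free.chooseBasis ℤ L
  choose Fj hFj hj using fun j => D.open_stab (b j)
  let F0 : IntermediateField ℚ (AlgebraicClosure ℚ) := (⨆ j, Fj j) ⊔ F₁
  have : FiniteDimensional ℚ F0 := IntermediateField.finiteDimensional_sup _ _
  have hgal : IsGalois ℚ (AlgebraicClosure ℚ) := isGalois_Qbar inferInstance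
  have hF0 : F0 ≤ IntermediateField.normalClosure ℚ F0 (AlgebraicClosure ℚ) :=
    IntermediateField.le_normalClosure F0
  refine ⟨IntermediateField.normalClosure ℚ F0 (AlgebraicClosure ℚ), inferInstance,
    le_trans le_sup_right hF0, ?_, ?_⟩
  · intro σ x hx
    have hn : Normal ℚ (IntermediateField.normalClosure ℚ F0 (AlgebraicClosure ℚ)) :=
      normalClosure.normal ℚ F0 (AlgebraicClosure ℚ)
    have := IntermediateField.normal_iff_forall_map_le.mp hn (σ : AlgebraicClosure ℚ →ₐ[ℚ] _)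
    exact this ⟨x, hx, rfl⟩
  · intro σ hσ x
    have h1 : (D.actG σ) ∘ₗ D.e = D.e := by
      refine b.ext fun j => ?_
      rw [LinearMap.comp_apply]
      refine hj j σ fun y hy => hσ y (hF0 ?_)
      exact (le_trans (le_iSup Fj j) le_sup_left) hy
    exact LinearMap.congr_fun h1 x

theorem approx (ρ : GaloisRepAdic T) (πH : H →+* T) (hp : p.Prime) (hpS : p ∈ S)
    (hchar : ∀ ℓ : ℕ, ℓ.Prime → ℓ ∉ S → ∀ A : ValuationSubring (AlgebraicClosure ℚ),
      A.LiesOverPrime ℓ → ∀ σ : Γℚ, A.IsFrobeniusAt σ ℓ →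
        LinearMap.charpoly (ρ.ρ σ) = Polynomial.X ^ 2 - C (πH (X ℓ)) * Polynomial.X + C ((ℓ : T)))
    (hdens : FrobDense S) (k : ℕ) {K : ℕ} (D : LevelDatum p S X actL K)
    {ζ : AlgebraicClosure ℚ} (hζ : ζ ^ (p ^ K) = 1) (g : Γℚ) :
    ∃ (t : H) (c : ℕ),
      LinearMap.trace T ρ.V (ρ.ρ g) - πH t ∈ IsLocalRing.maximalIdeal T ^ k ∧
      g ζ = ζ ^ c ∧
      ∀ x : L, D.actH t (D.e x) = D.actG g (D.e x) + c • D.actG g⁻¹ (D.e x) := by
  obtain ⟨Lk, hLk, hρ⟩ := ρ.isAdicContinuous k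
  have hgal : IsGalois ℚ (AlgebraicClosure ℚ) := isGalois_Qbar inferInstance
  have : FiniteDimensional ℚ (IntermediateField.adjoin ℚ {ζ}) :=
    IntermediateField.adjoin.finiteDimensional (Algebra.IsIntegral.isIntegral ζ)
  obtain ⟨F, hFfin, hF₁, hFnorm, hFW⟩ := exists_common_field D (Lk ⊔ IntermediateField.adjoin ℚ {ζ})
  obtain ⟨ℓ, hℓ, hℓS, A, hA, τ, hτ, r, hr⟩ := hdens F hFfin g
  have hℓp : ¬ ℓ ∣ p ^ K := by
    intro hd
    have := (Nat.prime_dvd_prime_iff_eq hℓ hp).mp (hℓ.dvd_of_dvd_pow hd)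
    exact hℓS (this ▸ hpS)
  have hσ : ∀ y ∈ F, (τ ^ r * g⁻¹) y = y := by
    intro y hy
    rw [AlgEquiv.mul_apply, ← hr _ (hFnorm g⁻¹ y hy), ← AlgEquiv.mul_apply, mul_inv_cancel,
      AlgEquiv.one_apply]
  have hσ' : ∀ y ∈ F, (g⁻¹ * τ ^ r) y = y := by
    intro y hy
    rw [AlgEquiv.mul_apply, ← hr _ hy, ← AlgEquiv.mul_apply, inv_mul_cancel, AlgEquiv.one_apply]
  refine ⟨dickson (X ℓ) (ℓ : H) r, ℓ ^ r, ?_, ?_, ?_⟩
  · have h1 : LinearMap.trace T ρ.V (ρ.ρ (τ ^ r)) = πH (dickson (X ℓ) (ℓ : H) r) := by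
      rw [map_pow, trace_pow_eq_dickson ρ.finrank_eq _ _ _ (hchar ℓ hℓ hℓS A hA τ hτ), map_dickson,
        map_natCast]
    rw [← h1, ← map_sub]
    refine trace_mem_of_forall_mem _ _ fun v => ?_
    have h2 := hρ (τ ^ r * g⁻¹) (fun y hy => hσ y (hF₁ (le_sup_left (a := Lk) hy))) (ρ.ρ g v)
    rw [← Module.End.mul_apply, ← map_mul, inv_mul_cancel_right] at h2
    rw [LinearMap.sub_apply, ← neg_sub]
    exact Submodule.neg_mem _ h2
  · have hζF : ζ ∈ F := hF₁ (le_sup_right (a := Lk)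
      (IntermediateField.mem_adjoin_simple_self ℚ ζ))
    rw [hr ζ hζF, frobenius_pow_apply_root A hℓ hA hτ hℓp hζ]
  · intro x
    have hxy : D.actG τ * D.actG τ⁻¹ = 1 := by rw [← map_mul, mul_inv_cancel, map_one]
    have hyx : D.actG τ⁻¹ * D.actG τ = 1 := by rw [← map_mul, inv_mul_cancel, map_one]
    have h1 := pow_add_pow_eq_dickson (D.actG τ) (D.actG τ⁻¹) (D.actH (X ℓ)) ℓ hxy hyx
      (D.frob ℓ hℓ hℓS A hA τ hτ) r
    rw [map_dickson, map_natCast, ← h1, ← map_pow, ← map_pow, inv_pow, LinearMap.add_apply,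
      Module.End.mul_apply, ← Nat.cast_pow, Module.End.natCast_apply]
    have h2 : D.actG (τ ^ r) (D.e x) = D.actG g (D.e x) := by
      conv_rhs => rw [← hFW _ hσ' x]
      rw [← Module.End.mul_apply, ← map_mul, mul_inv_cancel_left]
    have h3 : D.actG (τ ^ r)⁻¹ (D.e x) = D.actG g⁻¹ (D.e x) := by
      conv_lhs => rw [← hFW _ hσ x]
      rw [← Module.End.mul_apply, ← map_mul, inv_mul_cancel_left]
    rw [h2, h3]

/-- The abstract form of S31. -/
theorem isUnramifiedAt_of_levelData [IsNoetherianRing T] (ρ : GaloisRepAdic T)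
    (habs : ρ.residual.IsAbsolutelyIrreducible) (πH : H →+* T) (hp : p.Prime)
    (hpT : (p : T) ∈ IsLocalRing.maximalIdeal T) (hpS : p ∈ S)
    (hchar : ∀ ℓ : ℕ, ℓ.Prime → ℓ ∉ S → ∀ A : ValuationSubring (AlgebraicClosure ℚ),
      A.LiesOverPrime ℓ → ∀ σ : Γℚ, A.IsFrobeniusAt σ ℓ →
        LinearMap.charpoly (ρ.ρ σ) = Polynomial.X ^ 2 - C (πH (X ℓ)) * Polynomial.X + C ((ℓ : T)))
    (hker : ∀ t : H, actL t = 0 → πH t = 0)
    (hlev : ∀ K : ℕ, Nonempty (LevelDatum p S X actL K))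
    (hdens : FrobDense S) (q : ℕ) (hq : q.Prime) (hqS : q ∉ S) : ρ.IsUnramifiedAt q := by
  intro P hP i hi
  refine rho_eq_one_of_trace ρ habs i fun h => ?_
  obtain ⟨a, ha⟩ := exists_artinRees actL p
  have hqp : ∀ K : ℕ, ¬ q ∣ p ^ K := by
    intro K hd
    have := (Nat.prime_dvd_prime_iff_eq hq hp).mp (hq.dvd_of_dvd_pow hd)
    exact hqS (this ▸ hpS)
  have key : ∀ k : ℕ, LinearMap.trace T ρ.V (ρ.ρ (i * h)) - LinearMap.trace T ρ.V (ρ.ρ h) ∈
      IsLocalRing.maximalIdeal T ^ k := by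
    intro k
    obtain ⟨D⟩ := hlev (k + a)
    have hne : NeZero (p ^ (k + a)) := ⟨pow_ne_zero _ hp.ne_zero⟩
    obtain ⟨ζ, hζ⟩ := HasEnoughRootsOfUnity.exists_primitiveRoot (AlgebraicClosure ℚ) (p ^ (k + a))
    obtain ⟨t, c, ht, hc, hW⟩ := approx ρ πH hp hpS hchar hdens k D hζ.pow_eq_one h
    obtain ⟨t', c', ht', hc', hW'⟩ := approx ρ πH hp hpS hchar hdens k D hζ.pow_eq_one (i * h)
    have hi1 : D.actG i = 1 := D.inertia q hq hqS P hP i hi
    have hi2 : D.actG i⁻¹ = 1 := D.inertia q hq hqS P hP i⁻¹ (inv_mem hi)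
    have hcc : ζ ^ c' = ζ ^ c := by
      rw [← hc', AlgEquiv.mul_apply, hc, map_pow,
        inertia_apply_root P hq hP hi (hqp (k + a)) hζ.pow_eq_one]
    have hmod : (c' : ℤ) ≡ c [ZMOD (p ^ (k + a) : ℕ)] := by
      have hζ0 : ζ ≠ 0 := hζ.ne_zero hne.out
      have h1 : ζ ^ ((c : ℤ) - (c' : ℤ)) = 1 := by
        rw [zpow_sub₀ hζ0, zpow_natCast, zpow_natCast, hcc, div_self (pow_ne_zero _ hζ0)]
      exact (Int.modEq_iff_dvd).mpr ((hζ.zpow_eq_one_iff_dvd _).mp h1)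
    have hδ : ∀ x : L, ∃ y : L, actL (t' - t) x = (p ^ (k + a) : ℤ) • y := by
      intro x
      apply D.ker_e
      rw [D.e_actL, map_sub, LinearMap.sub_apply, hW, hW', map_mul, mul_inv_rev, map_mul, hi1, hi2,
        one_mul, mul_one, add_sub_add_left_eq_sub, ← natCast_zsmul, ← natCast_zsmul, ← sub_smul]
      obtain ⟨m, hm⟩ := hmod.symm.dvd
      rw [hm, mul_comm, mul_smul, ← map_zsmul]
      have := D.pow_smul_e x
      push_cast
      rw [this, map_zero, smul_zero]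
    obtain ⟨δ', hδ'⟩ := ha k (t' - t) hδ
    have h1 := hker _ hδ'
    rw [map_sub, map_sub, map_mul, map_pow, map_natCast, sub_eq_zero] at h1
    have h2 : πH t' - πH t ∈ IsLocalRing.maximalIdeal T ^ k := by
      rw [h1]
      exact Ideal.mul_mem_right _ _ (Ideal.pow_mem_pow hpT k)
    have h3 : LinearMap.trace T ρ.V (ρ.ρ (i * h)) - LinearMap.trace T ρ.V (ρ.ρ h) =
        (LinearMap.trace T ρ.V (ρ.ρ (i * h)) - πH t') + (πH t' - πH t) -
          (LinearMap.trace T ρ.V (ρ.ρ h) - πH t) := by ring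
    rw [h3]
    exact Ideal.sub_mem _ (Ideal.add_mem _ ht' h2) ht
  have hkrull := Ideal.iInf_pow_eq_bot_of_isLocalRing (IsLocalRing.maximalIdeal T)
    (Ideal.IsPrime.ne_top inferInstance)
  have : LinearMap.trace T ρ.V (ρ.ρ (i * h)) - LinearMap.trace T ρ.V (ρ.ρ h) ∈
      (⨅ k, IsLocalRing.maximalIdeal T ^ k : Ideal T) := by
    rw [Ideal.mem_iInf]
    exact key
  rw [hkrull, Ideal.mem_bot, sub_eq_zero] at this
  exact this

end Main

end Fermat.Agent.GAL.S31
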