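import Mathlib
import Fermat.Prelude.Def_CuspForm_HeckeGaloisRepDatum
import Fermat.Agent.GAL.ALG.Defs
import Fermat.Agent.GAL.S31.Abstract

/-!
# S31 from an abstract Eichler--Shimura datum and Frobenius density
-/

set_option autoImplicit false

namespace Fermat.Agent.GAL.S31

open CuspForm

/-- Matrices acting `ℤ`-linearly on column vectors. -/
noncomputable def matEnd (R : Type) [CommRing R] (r : ℕ) :
    Matrix (Fin r) (Fin r) R →+* Module.End ℤ (Fin r → R) where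
  toFun M := (Matrix.mulVecLin M).restrictScalars ℤ
  map_one' := by ext v; simp
  map_mul' A B := by ext v; simp [Module.End.mul_apply]
  map_zero' := by ext v; simp
  map_add' A B := by ext v; simp

theorem matEnd_apply (R : Type) [CommRing R] (r : ℕ) (M : Matrix (Fin r) (Fin r) R)
    (v : Fin r → R) : matEnd R r M v = M.mulVec v := rfl

section

variable {N M p : ℕ} [NeZero N] [Fact p.Prime] (D : ESDatumAt N M p) (S : Finset ℕ)

open Classical in
/-- The Hecke matrices away from `S` and `N`. -/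
noncomputable def famMat : ℕ → Matrix (Fin D.r) (Fin D.r) ℤ := fun ℓ =>
  if ℓ.Prime ∧ ¬ ℓ ∣ N ∧ ℓ ∉ (↑S : Set ℕ) ∧ ¬ ℓ ∣ M then D.T ℓ else 0

open Classical in
/-- The Hecke operators away from `S` and `N`. -/
noncomputable def famHecke (M : ℕ) : ℕ → heckeAlgebra N 2 (↑S : Set ℕ) := fun ℓ =>
  if h : ℓ.Prime ∧ ¬ ℓ ∣ N ∧ ℓ ∉ (↑S : Set ℕ) ∧ ¬ ℓ ∣ M then heckeAlgebra.T h.1 h.2.1 h.2.2.1 else 0

/-- The free algebra acting on the lattice. -/
noncomputable def toMat : FreeAlgebra ℤ ℕ →ₐ[ℤ] Matrix (Fin D.r) (Fin D.r) ℤ :=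
  FreeAlgebra.lift ℤ (famMat D S)

/-- The free algebra mapping to the Hecke algebra. -/
noncomputable def toHecke (M : ℕ) : FreeAlgebra ℤ ℕ →ₐ[ℤ] heckeAlgebra N 2 (↑S : Set ℕ) :=
  FreeAlgebra.lift ℤ (famHecke (N := N) S M)

theorem per_toHecke (t : FreeAlgebra ℤ ℕ) (f : CuspForm (CongruenceSubgroup.Gamma0 N) 2) :
    D.per ((toHecke (N := N) S M t : Module.End ℂ (CuspForm (CongruenceSubgroup.Gamma0 N) 2)) f) =
      ((Int.castRingHom ℂ).mapMatrix (toMat D S t)).mulVec (D.per f) := by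
  induction t using FreeAlgebra.induction generalizing f with
  | grade0 n =>
    rw [AlgHom.commutes, AlgHom.commutes]
    have h1 : ((algebraMap ℤ (heckeAlgebra N 2 (↑S : Set ℕ)) n : heckeAlgebra N 2 (↑S : Set ℕ)) :
        Module.End ℂ (CuspForm (CongruenceSubgroup.Gamma0 N) 2)) = algebraMap ℤ _ n := rfl
    rw [h1, Algebra.algebraMap_eq_smul_one, Algebra.algebraMap_eq_smul_one, LinearMap.smul_apply,
      Module.End.one_apply, map_zsmul, map_zsmul, map_one, Matrix.smul_mulVec, Matrix.one_mulVec]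
  | grade1 ℓ =>
    rw [toHecke, toMat, FreeAlgebra.lift_ι_apply, FreeAlgebra.lift_ι_apply, famHecke, famMat]
    by_cases h : ℓ.Prime ∧ ¬ ℓ ∣ N ∧ ℓ ∉ (↑S : Set ℕ) ∧ ¬ ℓ ∣ M
    · rw [dif_pos h, if_pos h, heckeAlgebra.coe_T, D.per_T _ _ _ h.2.2.2]
      rfl
    · rw [dif_neg h, if_neg h, map_zero, Matrix.zero_mulVec]
      exact map_zero D.per
  | mul a b ha hb =>
    have h1 : ((toHecke (N := N) S M (a * b) : heckeAlgebra N 2 (↑S : Set ℕ)) :
        Module.End ℂ (CuspForm (CongruenceSubgroup.Gamma0 N) 2)) =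
        (toHecke (N := N) S M a : Module.End ℂ _) * (toHecke (N := N) S M b : Module.End ℂ _) := by
      rw [map_mul]; rfl
    rw [h1, Module.End.mul_apply, ha, hb, map_mul (toMat D S), map_mul, Matrix.mulVec_mulVec]
  | add a b ha hb =>
    have h1 : ((toHecke (N := N) S M (a + b) : heckeAlgebra N 2 (↑S : Set ℕ)) :
        Module.End ℂ (CuspForm (CongruenceSubgroup.Gamma0 N) 2)) =
        (toHecke (N := N) S M a : Module.End ℂ _) + (toHecke (N := N) S M b : Module.End ℂ _) := by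
      rw [map_add]; rfl
    rw [h1, LinearMap.add_apply, map_add, ha, hb, map_add (toMat D S), map_add, Matrix.add_mulVec]

theorem toHecke_eq_zero_of_toMat (t : FreeAlgebra ℤ ℕ) (h : toMat D S t = 0) :
    toHecke (N := N) S M t = 0 := by
  apply Subtype.ext
  refine LinearMap.ext fun f => D.per_injective ?_
  rw [per_toHecke, h, map_zero, Matrix.zero_mulVec]
  exact (map_zero D.per).symm

theorem matEnd_injective (r : ℕ) : Function.Injective (matEnd ℤ r) := by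
  intro A B h
  ext i j
  have := congrFun (LinearMap.congr_fun h (Pi.single j 1)) i
  simpa [matEnd_apply] using this

theorem toMat_ι {ℓ : ℕ} (hℓ : ℓ.Prime) (hℓN : ¬ ℓ ∣ N) (hℓS : ℓ ∉ S) (hℓM : ¬ ℓ ∣ M) :
    toMat D S (FreeAlgebra.ι ℤ ℓ) = D.T ℓ := by
  rw [toMat, FreeAlgebra.lift_ι_apply, famMat, if_pos ⟨hℓ, hℓN, by simpa using hℓS, hℓM⟩]

omit [Fact p.Prime] in
theorem toHecke_ι {ℓ : ℕ} (hℓ : ℓ.Prime) (hℓN : ¬ ℓ ∣ N) (hℓS : ℓ ∉ (↑S : Set ℕ))
    (hℓM : ¬ ℓ ∣ M) :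
    toHecke (N := N) S M (FreeAlgebra.ι ℤ ℓ) = heckeAlgebra.T hℓ hℓN hℓS := by
  rw [toHecke, FreeAlgebra.lift_ι_apply, famHecke, dif_pos ⟨hℓ, hℓN, hℓS, hℓM⟩]

omit [NeZero N] in
theorem not_dvd_of_notMem (hM : M ≠ 0) {ℓ : ℕ} (hℓ : ℓ.Prime) (hℓS : ℓ ∉ S ∪ M.primeFactors) :
    ¬ ℓ ∣ M := by
  intro h
  exact hℓS (Finset.mem_union_right _ (Nat.mem_primeFactors.mpr ⟨hℓ, h, hM⟩))

omit [NeZero N] in
theorem not_dvd_mul (hM : M ≠ 0) (hpS : p ∈ S) {ℓ : ℕ} (hℓ : ℓ.Prime)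
    (hℓS : ℓ ∉ S ∪ M.primeFactors) : ¬ ℓ ∣ M * p := by
  intro h
  rcases (Nat.Prime.dvd_mul hℓ).mp h with h | h
  · exact not_dvd_of_notMem S hM hℓ hℓS h
  · exact hℓS (Finset.mem_union_left _
      (((Nat.prime_dvd_prime_iff_eq hℓ (Fact.out : p.Prime)).mp h) ▸ hpS))

/-- The level `p^K` datum attached to an Eichler--Shimura datum. -/
noncomputable def levelDatum (hM : M ≠ 0) (hpS : p ∈ S)
    (hNS : ∀ q : ℕ, q.Prime → q ∣ N → q ∈ S) (K : ℕ) :
    LevelDatum p (S ∪ M.primeFactors) (FreeAlgebra.ι ℤ)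
      ((matEnd ℤ D.r).comp (toMat D S).toRingHom) K where
  W := Fin D.r → ZMod (p ^ K)
  actH := (matEnd (ZMod (p ^ K)) D.r).comp
    ((Int.castRingHom (ZMod (p ^ K))).mapMatrix.comp (toMat D S).toRingHom)
  actG := ((matEnd (ZMod (p ^ K)) D.r).comp
    (PadicInt.toZModPow K).mapMatrix).toMonoidHom.comp D.ρ
  e :=
    { toFun := fun v i => ((v i : ℤ) : ZMod (p ^ K))
      map_add' := fun v w => by ext i; simp
      map_smul' := fun c v => by ext i; simp }
  e_actL := fun t x => by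
    ext i
    exact RingHom.map_mulVec (Int.castRingHom (ZMod (p ^ K))) (toMat D S t) x i
  ker_e := fun x hx => by
    have h1 : ∀ i, ((p ^ K : ℕ) : ℤ) ∣ x i := fun i =>
      (ZMod.intCast_zmod_eq_zero_iff_dvd (x i) (p ^ K)).mp (congrFun hx i)
    choose y hy using h1
    refine ⟨y, ?_⟩
    ext i
    rw [hy i]
    simp
  pow_smul_e := fun x => by
    ext i
    have : ((p ^ K : ℕ) : ZMod (p ^ K)) = 0 := ZMod.natCast_self _
    simp only [LinearMap.coe_mk, AddHom.coe_mk, Pi.smul_apply, zsmul_eq_mul, Pi.zero_apply]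
    push_cast at this ⊢
    rw [this, zero_mul]
  open_stab := fun x => by
    obtain ⟨F, hF, h⟩ := D.ρ_cont K
    refine ⟨F, hF, fun σ hσ => ?_⟩
    have h1 : (PadicInt.toZModPow K).mapMatrix (D.ρ σ) = 1 := by
      rw [← sub_eq_zero, ← map_one (PadicInt.toZModPow K).mapMatrix, ← map_sub]
      ext i j
      have h2 : (D.ρ σ - 1) i j ∈ RingHom.ker (PadicInt.toZModPow (p := p) K) := by
        rw [PadicInt.ker_toZModPow, Ideal.mem_span_singleton]
        exact h σ hσ i j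
      exact h2
    show matEnd (ZMod (p ^ K)) D.r ((PadicInt.toZModPow K).mapMatrix (D.ρ σ)) _ = _
    rw [h1, map_one, Module.End.one_apply]
  inertia := fun q hq hqS P hP σ hσ => by
    show matEnd (ZMod (p ^ K)) D.r ((PadicInt.toZModPow K).mapMatrix (D.ρ σ)) = 1
    rw [D.ρ_unram q hq (not_dvd_mul S hM hpS hq hqS) P hP σ hσ, map_one, map_one]
  frob := fun ℓ hℓ hℓS A hA σ hσ => by
    have h1 := congrArg ((matEnd (ZMod (p ^ K)) D.r).comp (PadicInt.toZModPow K).mapMatrix)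
      (D.ρ_ES ℓ hℓ (not_dvd_mul S hM hpS hℓ hℓS) A hA σ hσ)
    rw [map_add, map_sub, map_mul, map_mul, map_natCast, map_zero] at h1
    have h2 : ((matEnd (ZMod (p ^ K)) D.r).comp (PadicInt.toZModPow K).mapMatrix)
        ((D.T ℓ).map (Int.castRingHom ℤ_[p])) =
        ((matEnd (ZMod (p ^ K)) D.r).comp
          ((Int.castRingHom (ZMod (p ^ K))).mapMatrix.comp (toMat D S).toRingHom))
          (FreeAlgebra.ι ℤ ℓ) := by
      have hℓS₀ : ℓ ∉ S := fun h => hℓS (Finset.mem_union_left _ h)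
      have hℓN : ¬ ℓ ∣ N := fun h => hℓS₀ (hNS ℓ hℓ h)
      rw [RingHom.comp_apply, RingHom.comp_apply, RingHom.comp_apply]
      congr 1
      have : (toMat D S).toRingHom (FreeAlgebra.ι ℤ ℓ) = D.T ℓ :=
        toMat_ι D S hℓ hℓN hℓS₀ (not_dvd_of_notMem S hM hℓ hℓS)
      rw [this]
      ext i j
      simp
    rw [h2] at h1
    exact h1

end

theorem frobDense_of_frobeniusDensity (h : FrobeniusDensity) (S : Finset ℕ) : FrobDense S := by
  intro F hF g
  obtain ⟨ℓ, A, σ, b, hℓ, hℓS, hA, hσ, hb⟩ := h F hF g S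
  exact ⟨ℓ, hℓ, hℓS, A, hA, σ, hσ, b, fun x hx => (hb x hx).symm⟩

section Final

variable {p : ℕ} {N : ℕ} [NeZero N] {S : Finset ℕ}
  {𝒪 : Type} [CommRing 𝒪] [IsDomain 𝒪] [IsDiscreteValuationRing 𝒪]
  [IsAdicComplete (IsLocalRing.maximalIdeal 𝒪) 𝒪]
  {θ : CuspForm.heckeAlgebra N 2 (↑S : Set ℕ) →+* IsLocalRing.ResidueField 𝒪}
  {T : Type} [CommRing T] [IsLocalRing T] [IsNoetherianRing T]
  [IsAdicComplete (IsLocalRing.maximalIdeal T) T] [Algebra 𝒪 T] [IsLocalHom (algebraMap 𝒪 T)]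
  [Module.Finite 𝒪 T] [Module.Free 𝒪 T]

/-- **S31** at `q` from an Eichler--Shimura datum for level `N` at `p` with auxiliary level `M`
prime to `q`, and Frobenius density. -/
theorem isUnramifiedAt_of_esDatumAt [Fact p.Prime] {M : ℕ} (D : ESDatumAt N M p)
    (hdens : FrobeniusDensity)
    (hp𝒪 : (p : 𝒪) ∈ IsLocalRing.maximalIdeal 𝒪) (hpS : p ∈ S)
    (hNS : ∀ q : ℕ, q.Prime → q ∣ N → q ∈ S)
    (H : CuspForm.HeckeGaloisRepDatum N (↑S : Set ℕ) 𝒪 θ T)
    (q : ℕ) (hq : q.Prime) (hqS : q ∉ S) (hqM : ¬ q ∣ M) :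
    H.ρ.IsUnramifiedAt q := by
  have hM : M ≠ 0 := by
    rintro rfl
    exact hqM (dvd_zero q)
  have hqS' : q ∉ S ∪ M.primeFactors := by
    intro h
    rcases Finset.mem_union.mp h with h | h
    · exact hqS h
    · exact hqM (Nat.dvd_of_mem_primeFactors h)
  refine isUnramifiedAt_of_levelData (p := p) (S := S ∪ M.primeFactors) (X := FreeAlgebra.ι ℤ)
    (actL := (matEnd ℤ D.r).comp (toMat D S).toRingHom) H.ρ H.residual_absIrr
    (H.π.comp (toHecke (N := N) S M).toRingHom) Fact.out ?_ (Finset.mem_union_left _ hpS) ?_ ?_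
    (fun K => ⟨levelDatum D S hM hpS hNS K⟩) (frobDense_of_frobeniusDensity hdens _) q hq hqS'
  · have := map_nonunit (algebraMap 𝒪 T) (p : 𝒪) hp𝒪
    rwa [map_natCast] at this
  · intro ℓ hℓ hℓS A hA σ hσ
    have hℓS₀ : ℓ ∉ S := fun h => hℓS (Finset.mem_union_left _ h)
    have hℓN : ¬ ℓ ∣ N := fun h => hℓS₀ (hNS ℓ hℓ h)
    have hℓS' : ℓ ∉ (↑S : Set ℕ) := by simpa using hℓS₀
    rw [H.charpoly_frob ℓ hℓ hℓN hℓS' A hA σ hσ, RingHom.comp_apply]
    have : (toHecke (N := N) S M).toRingHom (FreeAlgebra.ι ℤ ℓ) = heckeAlgebra.T hℓ hℓN hℓS' :=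
      toHecke_ι S hℓ hℓN hℓS' (not_dvd_of_notMem S hM hℓ hℓS)
    rw [this]
  · intro t ht
    have h1 : toMat D S t = 0 := by
      apply matEnd_injective D.r
      rw [map_zero]
      exact ht
    rw [RingHom.comp_apply]
    have : (toHecke (N := N) S M).toRingHom t = 0 := toHecke_eq_zero_of_toMat D S t h1
    rw [this, map_zero]

end Final

end Fermat.Agent.GAL.S31
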