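import Fermat.Agent.GAL.S31.Bridge
import Fermat.Agent.Lib.FrobDensity.GALInterface

/-!
# S31 from the geometric input of the Galois representation cluster

* `s31_of_geomInput` is the exact statement S31 with the single extra hypothesis `GeomInput`.
* `s31_of_esDatum` is the exact statement S31 with the single extra hypothesis
  `Nonempty (ESDatum N p)`.
-/

set_option autoImplicit false

namespace Fermat.Agent.GAL.S31

variable {p : ℕ} {N : ℕ} [NeZero N] {S : Finset ℕ}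
  {𝒪 : Type} [CommRing 𝒪] [IsDomain 𝒪] [IsDiscreteValuationRing 𝒪]
  [IsAdicComplete (IsLocalRing.maximalIdeal 𝒪) 𝒪]
  {θ : CuspForm.heckeAlgebra N 2 (↑S : Set ℕ) →+* IsLocalRing.ResidueField 𝒪}
  {T : Type} [CommRing T] [IsLocalRing T] [IsNoetherianRing T]
  [IsAdicComplete (IsLocalRing.maximalIdeal T) T] [Algebra 𝒪 T] [IsLocalHom (algebraMap 𝒪 T)]
  [Module.Finite 𝒪 T] [Module.Free 𝒪 T]

theorem s31_of_geomInput (hgeom : GeomInput) (hp : p.Prime)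
    (hp𝒪 : (p : 𝒪) ∈ IsLocalRing.maximalIdeal 𝒪) (hpS : p ∈ S)
    (hNS : ∀ q : ℕ, q.Prime → q ∣ N → q ∈ S)
    (H : CuspForm.HeckeGaloisRepDatum N (↑S : Set ℕ) 𝒪 θ T)
    (q : ℕ) (hq : q.Prime) (hqS : q ∉ S) :
    H.ρ.IsUnramifiedAt q := by
  have : Fact p.Prime := ⟨hp⟩
  have hqNp : ¬ q ∣ N * p := by
    intro h
    rcases (Nat.Prime.dvd_mul hq).mp h with h | h
    · exact hqS (hNS q hq h)
    · exact hqS (((Nat.prime_dvd_prime_iff_eq hq hp).mp h) ▸ hpS)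
  obtain ⟨M, hqM, ⟨D⟩⟩ := hgeom N p q hq hqNp
  exact isUnramifiedAt_of_esDatumAt D Fermat.Agent.Lib.FrobDensity.gal_frobeniusDensity hp𝒪 hpS hNS
    H q hq hqS hqM

theorem s31_of_esDatum (hp : p.Prime)
    (hES : haveI : Fact p.Prime := ⟨hp⟩; Nonempty (ESDatum N p))
    (hp𝒪 : (p : 𝒪) ∈ IsLocalRing.maximalIdeal 𝒪) (hpS : p ∈ S)
    (hNS : ∀ q : ℕ, q.Prime → q ∣ N → q ∈ S)
    (H : CuspForm.HeckeGaloisRepDatum N (↑S : Set ℕ) 𝒪 θ T)
    (q : ℕ) (hq : q.Prime) (hqS : q ∉ S) :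
    H.ρ.IsUnramifiedAt q := by
  have : Fact p.Prime := ⟨hp⟩
  obtain ⟨D⟩ := hES
  exact isUnramifiedAt_of_esDatumAt D.toAt Fermat.Agent.Lib.FrobDensity.gal_frobeniusDensity hp𝒪 hpS
    hNS H q hq hqS (fun h => hqS (hNS q hq h))

end Fermat.Agent.GAL.S31
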