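import Fermat.Agent.GAL.S31.Abstract

/-!
# Unipotent inertia from an abstract Eichler--Shimura datum

`charpoly_eq_of_levelData`: in the situation of `isUnramifiedAt_of_levelData`, let `i : G_ℚ` fix all
`p`-power roots of unity and satisfy `(i - 1)^2 = 0` on every level group `W_K`.  Then the
characteristic polynomial of `ρ(i)` is `(X - 1)^2`.
-/

set_option autoImplicit false

namespace Fermat.Agent.GAL.S31

open Module Polynomial

local notation "Γℚ" => (AlgebraicClosure ℚ ≃ₐ[ℚ] AlgebraicClosure ℚ)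

section

variable {T : Type*} [CommRing T] [Nontrivial T] {V : Type*} [AddCommGroup V] [Module T V]
  [Module.Free T V] [Module.Finite T V]

theorem charpoly_eq_of_finrank_two (hV : Module.finrank T V = 2) (f : Module.End T V) :
    LinearMap.charpoly f =
      X ^ 2 - C (LinearMap.trace T V f) * X + C (LinearMap.det f) := by
  classical
  let b : Module.Basis (Fin 2) T V := Module.finBasisOfFinrankEq T V hV
  rw [← LinearMap.charpoly_toMatrix f b, Matrix.charpoly_fin_two,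
    LinearMap.trace_eq_matrix_trace T b, ← LinearMap.det_toMatrix b]

theorem det_eq_of_charpoly (hV : Module.finrank T V = 2) (f : Module.End T V) (a d : T)
    (hf : LinearMap.charpoly f = X ^ 2 - C a * X + C d) : LinearMap.det f = d := by
  have h1 := charpoly_eq_of_finrank_two hV f
  rw [hf] at h1
  have h2 := congrArg (fun P => P.coeff 0) h1
  simp only [coeff_add, coeff_sub, coeff_X_pow, coeff_C_mul, coeff_X_zero, coeff_C_zero] at h2
  simpa using h2.symm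

/-- If `u v - v ∈ I V` for all `v` then `det u - 1 ∈ I`. -/
theorem det_sub_one_mem (hV : Module.finrank T V = 2) (I : Ideal T) (u : Module.End T V)
    (hu : ∀ v, u v - v ∈ I • (⊤ : Submodule T V)) : LinearMap.det u - 1 ∈ I := by
  classical
  let b : Module.Basis (Fin 2) T V := Module.finBasisOfFinrankEq T V hV
  have hent : ∀ i j, (LinearMap.toMatrix b b u - 1) i j ∈ I := by
    intro i j
    have h1 := repr_mem_of_mem_smul_top b I (hu (b j)) i
    rw [map_sub, Finsupp.sub_apply] at h1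
    rw [Matrix.sub_apply, LinearMap.toMatrix_apply, Matrix.one_apply]
    convert h1 using 2
    rw [Module.Basis.repr_self, Finsupp.single_apply]
    by_cases h : i = j
    · simp [h]
    · rw [if_neg h, if_neg (Ne.symm h)]
  rw [← LinearMap.det_toMatrix b, Matrix.det_fin_two]
  set Mx := LinearMap.toMatrix b b u with hMx
  have h00 := hent 0 0
  have h01 := hent 0 1
  have h11 := hent 1 1
  simp only [Matrix.sub_apply, Matrix.one_apply_eq] at h00 h11
  have h01' : Mx 0 1 ∈ I := by simpa using h01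
  have : Mx 0 0 * Mx 1 1 - Mx 0 1 * Mx 1 0 - 1 =
      (Mx 0 0 - 1) * Mx 1 1 + (Mx 1 1 - 1) - Mx 0 1 * Mx 1 0 := by ring
  rw [this]
  exact I.sub_mem (I.add_mem (I.mul_mem_right _ h00) h11) (I.mul_mem_right _ h01')

end

section Main

variable {T : Type} [CommRing T] [IsLocalRing T]
  {p : ℕ} {S : Finset ℕ} {H : Type} [Ring H] {X : ℕ → H}
  {L : Type} [AddCommGroup L] [Module.Free ℤ L] [Module.Finite ℤ L] {actL : H →+* Module.End ℤ L}

/-- `approx` together with the determinant. -/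
theorem approx_det (ρ : GaloisRepAdic T) (πH : H →+* T) (hp : p.Prime) (hpS : p ∈ S)
    (hchar : ∀ ℓ : ℕ, ℓ.Prime → ℓ ∉ S → ∀ A : ValuationSubring (AlgebraicClosure ℚ),
      A.LiesOverPrime ℓ → ∀ σ : Γℚ, A.IsFrobeniusAt σ ℓ →
        LinearMap.charpoly (ρ.ρ σ) = Polynomial.X ^ 2 - C (πH (X ℓ)) * Polynomial.X + C ((ℓ : T)))
    (hdens : FrobDense S) (k : ℕ) {K : ℕ} (D : LevelDatum p S X actL K)
    {ζ : AlgebraicClosure ℚ} (hζ : ζ ^ (p ^ K) = 1) (g : Γℚ) :
    ∃ (t : H) (c : ℕ),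
      LinearMap.trace T ρ.V (ρ.ρ g) - πH t ∈ IsLocalRing.maximalIdeal T ^ k ∧
      LinearMap.det (ρ.ρ g) - (c : T) ∈ IsLocalRing.maximalIdeal T ^ k ∧
      g ζ = ζ ^ c ∧
      ∀ x : L, D.actH t (D.e x) = D.actG g (D.e x) + c • D.actG g⁻¹ (D.e x) := by
  obtain ⟨Lk, hLk, hρ⟩ := ρ.isAdicContinuous k
  have hgal : IsGalois ℚ (AlgebraicClosure ℚ) := isGalois_Qbar inferInstance
  have : FiniteDimensional ℚ (IntermediateField.adjoin ℚ {ζ}) :=
    IntermediateField.adjoin.finiteDimensional (Algebra.IsIntegral.isIntegral ζ)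
  obtain ⟨F, hFfin, hF₁, hFnorm, hFW⟩ := exists_common_field D (Lk ⊔ IntermediateField.adjoin ℚ {ζ})
  obtain ⟨ℓ, hℓ, hℓS, A, hA, τ, hτ, r, hr⟩ := hdens F hFfin g
  have hℓp : ¬ ℓ ∣ p ^ K := by
    intro hd
    have := (Nat.prime_dvd_prime_iff_eq hℓ hp).mp (hℓ.dvd_of_dvd_pow hd)
    exact hℓS (this ▸ hpS)
  have hσ : ∀ y ∈ F, (τ ^ r * g⁻¹) y = y := by
    intro y hy
    rw [AlgEquiv.mul_apply, ← hr _ (hFnorm g⁻¹ y hy), ← AlgEquiv.mul_apply, mul_inv_cancel,
      AlgEquiv.one_apply]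
  have hσ' : ∀ y ∈ F, (g⁻¹ * τ ^ r) y = y := by
    intro y hy
    rw [AlgEquiv.mul_apply, ← hr _ hy, ← AlgEquiv.mul_apply, inv_mul_cancel, AlgEquiv.one_apply]
  refine ⟨dickson (X ℓ) (ℓ : H) r, ℓ ^ r, ?_, ?_, ?_, ?_⟩
  · have h1 : LinearMap.trace T ρ.V (ρ.ρ (τ ^ r)) = πH (dickson (X ℓ) (ℓ : H) r) := by
      rw [map_pow, trace_pow_eq_dickson ρ.finrank_eq _ _ _ (hchar ℓ hℓ hℓS A hA τ hτ), map_dickson,
        map_natCast]
    rw [← h1, ← map_sub]
    refine trace_mem_of_forall_mem _ _ fun v => ?_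
    have h2 := hρ (τ ^ r * g⁻¹) (fun y hy => hσ y (hF₁ (le_sup_left (a := Lk) hy))) (ρ.ρ g v)
    rw [← Module.End.mul_apply, ← map_mul, inv_mul_cancel_right] at h2
    rw [LinearMap.sub_apply, ← neg_sub]
    exact Submodule.neg_mem _ h2
  · have h1 : LinearMap.det (ρ.ρ (τ ^ r)) = ((ℓ ^ r : ℕ) : T) := by
      rw [map_pow, map_pow, det_eq_of_charpoly ρ.finrank_eq _ _ _ (hchar ℓ hℓ hℓS A hA τ hτ),
        Nat.cast_pow]
    have h2 := det_sub_one_mem ρ.finrank_eq _ (ρ.ρ (τ ^ r * g⁻¹))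
      (hρ (τ ^ r * g⁻¹) (fun y hy => hσ y (hF₁ (le_sup_left (a := Lk) hy))))
    have h3 : LinearMap.det (ρ.ρ (τ ^ r)) =
        LinearMap.det (ρ.ρ (τ ^ r * g⁻¹)) * LinearMap.det (ρ.ρ g) := by
      rw [← map_mul, ← map_mul, inv_mul_cancel_right]
    rw [← h1, h3]
    have : LinearMap.det (ρ.ρ g) - LinearMap.det (ρ.ρ (τ ^ r * g⁻¹)) * LinearMap.det (ρ.ρ g) =
        -((LinearMap.det (ρ.ρ (τ ^ r * g⁻¹)) - 1) * LinearMap.det (ρ.ρ g)) := by ring
    rw [this]
    exact Ideal.neg_mem_iff _ |>.mpr (Ideal.mul_mem_right _ _ h2)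
  · have hζF : ζ ∈ F := hF₁ (le_sup_right (a := Lk)
      (IntermediateField.mem_adjoin_simple_self ℚ ζ))
    rw [hr ζ hζF, frobenius_pow_apply_root A hℓ hA hτ hℓp hζ]
  · intro x
    have hxy : D.actG τ * D.actG τ⁻¹ = 1 := by rw [← map_mul, mul_inv_cancel, map_one]
    have hyx : D.actG τ⁻¹ * D.actG τ = 1 := by rw [← map_mul, inv_mul_cancel, map_one]
    have h1 := pow_add_pow_eq_dickson (D.actG τ) (D.actG τ⁻¹) (D.actH (X ℓ)) ℓ hxy hyx
      (D.frob ℓ hℓ hℓS A hA τ hτ) r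
    rw [map_dickson, map_natCast, ← h1, ← map_pow, ← map_pow, inv_pow, LinearMap.add_apply,
      Module.End.mul_apply, ← Nat.cast_pow, Module.End.natCast_apply]
    have h2 : D.actG (τ ^ r) (D.e x) = D.actG g (D.e x) := by
      conv_rhs => rw [← hFW _ hσ' x]
      rw [← Module.End.mul_apply, ← map_mul, mul_inv_cancel_left]
    have h3 : D.actG (τ ^ r)⁻¹ (D.e x) = D.actG g⁻¹ (D.e x) := by
      conv_lhs => rw [← hFW _ hσ x]
      rw [← Module.End.mul_apply, ← map_mul, inv_mul_cancel_left]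
    rw [h2, h3]

/-- Unipotence of `ρ(i)` from unipotence of `i` on all the level groups. -/
theorem charpoly_eq_of_levelData [IsNoetherianRing T] (ρ : GaloisRepAdic T)
    (πH : H →+* T) (hp : p.Prime)
    (hpT : (p : T) ∈ IsLocalRing.maximalIdeal T) (hpS : p ∈ S)
    (hchar : ∀ ℓ : ℕ, ℓ.Prime → ℓ ∉ S → ∀ A : ValuationSubring (AlgebraicClosure ℚ),
      A.LiesOverPrime ℓ → ∀ σ : Γℚ, A.IsFrobeniusAt σ ℓ →
        LinearMap.charpoly (ρ.ρ σ) = Polynomial.X ^ 2 - C (πH (X ℓ)) * Polynomial.X + C ((ℓ : T)))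
    (hker : ∀ t : H, actL t = 0 → πH t = 0)
    (hdens : FrobDense S) (i : Γℚ)
    (hroot : ∀ (K : ℕ) (ζ : AlgebraicClosure ℚ), ζ ^ (p ^ K) = 1 → i ζ = ζ)
    (hlev : ∀ K : ℕ, ∃ D : LevelDatum p S X actL K, (D.actG i - 1) * (D.actG i - 1) = 0) :
    LinearMap.charpoly (ρ.ρ i) = (Polynomial.X - 1) ^ 2 := by
  obtain ⟨a, ha⟩ := exists_artinRees actL p
  have key : ∀ k : ℕ, LinearMap.trace T ρ.V (ρ.ρ i) - 2 ∈ IsLocalRing.maximalIdeal T ^ k ∧
      LinearMap.det (ρ.ρ i) - 1 ∈ IsLocalRing.maximalIdeal T ^ k := by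
    intro k
    obtain ⟨D, hD⟩ := hlev (k + a)
    have hne : NeZero (p ^ (k + a)) := ⟨pow_ne_zero _ hp.ne_zero⟩
    obtain ⟨ζ, hζ⟩ := HasEnoughRootsOfUnity.exists_primitiveRoot (AlgebraicClosure ℚ) (p ^ (k + a))
    obtain ⟨t, c, ht, -, hc, hW⟩ := approx_det ρ πH hp hpS hchar hdens k D hζ.pow_eq_one 1
    obtain ⟨t', c', ht', hd', hc', hW'⟩ := approx_det ρ πH hp hpS hchar hdens k D hζ.pow_eq_one i
    have hζ0 : ζ ≠ 0 := hζ.ne_zero hne.out
    have hmod1 : ∀ n : ℕ, ζ = ζ ^ n → ((p ^ (k + a) : ℕ) : ℤ) ∣ (n : ℤ) - 1 := by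
      intro n hn
      have h1 : ζ ^ ((n : ℤ) - 1) = 1 := by
        rw [zpow_sub₀ hζ0, zpow_natCast, zpow_one, ← hn, div_self hζ0]
      exact (hζ.zpow_eq_one_iff_dvd _).mp h1
    have hcm : ((p ^ (k + a) : ℕ) : ℤ) ∣ (c : ℤ) - 1 := hmod1 c (by simpa using hc)
    have hcm' : ((p ^ (k + a) : ℕ) : ℤ) ∣ (c' : ℤ) - 1 :=
      hmod1 c' (by rw [← hc', hroot _ ζ hζ.pow_eq_one])
    -- `i + i⁻¹ = 2`
    have hinv : D.actG i + D.actG i⁻¹ = 2 := by
      have h1 : D.actG i * D.actG i⁻¹ = 1 := by rw [← map_mul, mul_inv_cancel, map_one]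
      have h2 : (D.actG i - 1) * (D.actG i - 1) * D.actG i⁻¹ = 0 := by rw [hD, zero_mul]
      have h3 : (D.actG i - 1) * (D.actG i - 1) * D.actG i⁻¹ =
          D.actG i * (D.actG i * D.actG i⁻¹) - 2 * (D.actG i * D.actG i⁻¹) + D.actG i⁻¹ := by
        noncomm_ring
      rw [h3, h1, mul_one, mul_one] at h2
      have : D.actG i + D.actG i⁻¹ = (D.actG i - 2 + D.actG i⁻¹) + 2 := by abel
      rw [this, h2, zero_add]
    have hsm : ∀ (n : ℕ) (w : D.W), (p ^ (k + a) : ℤ) • w = 0 →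
        ((p ^ (k + a) : ℕ) : ℤ) ∣ (n : ℤ) - 1 → n • w = w := by
      intro n w hw hn
      obtain ⟨m, hm⟩ := hn
      have h1 : (n : ℤ) = 1 + m * (p ^ (k + a) : ℤ) := by
        push_cast at hm
        linarith
      rw [← natCast_zsmul, h1, add_smul, one_smul, mul_smul, hw, smul_zero, add_zero]
    have hδ : ∀ x : L, ∃ y : L, actL (t' - t) x = (p ^ (k + a) : ℤ) • y := by
      intro x
      apply D.ker_e
      have hk1 : (p ^ (k + a) : ℤ) • D.actG (1 : Γℚ)⁻¹ (D.e x) = 0 := by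
        rw [← map_zsmul, D.pow_smul_e, map_zero]
      have hk2 : (p ^ (k + a) : ℤ) • D.actG i⁻¹ (D.e x) = 0 := by
        rw [← map_zsmul, D.pow_smul_e, map_zero]
      rw [D.e_actL, map_sub, LinearMap.sub_apply, hW, hW', hsm c _ hk1 hcm, hsm c' _ hk2 hcm',
        ← LinearMap.add_apply, hinv, inv_one, map_one, Module.End.one_apply]
      have : (2 : Module.End ℤ D.W) (D.e x) = D.e x + D.e x := by
        rw [← one_add_one_eq_two, LinearMap.add_apply, Module.End.one_apply]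
      rw [this, sub_self]
    obtain ⟨δ', hδ'⟩ := ha k (t' - t) hδ
    have h1 := hker _ hδ'
    rw [map_sub, map_sub, map_mul, map_pow, map_natCast, sub_eq_zero] at h1
    have h2 : πH t' - πH t ∈ IsLocalRing.maximalIdeal T ^ k := by
      rw [h1]
      exact Ideal.mul_mem_right _ _ (Ideal.pow_mem_pow hpT k)
    have htr1 : LinearMap.trace T ρ.V (ρ.ρ 1) = 2 := by
      rw [map_one, LinearMap.trace_one, ρ.finrank_eq]; norm_num
    rw [htr1] at ht
    constructor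
    · have h3 : LinearMap.trace T ρ.V (ρ.ρ i) - 2 =
          (LinearMap.trace T ρ.V (ρ.ρ i) - πH t') + (πH t' - πH t) - (2 - πH t) := by ring
      rw [h3]
      exact Ideal.sub_mem _ (Ideal.add_mem _ ht' h2) ht
    · obtain ⟨m, hm⟩ := hcm'
      have h4 : (c' : T) - 1 = (p : T) ^ (k + a) * (m : T) := by
        have := congrArg (Int.cast : ℤ → T) hm
        push_cast at this
        exact this
      have h5 : (c' : T) - 1 ∈ IsLocalRing.maximalIdeal T ^ k := by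
        rw [h4, pow_add, mul_assoc]
        exact Ideal.mul_mem_right _ _ (Ideal.pow_mem_pow hpT k)
      have h6 : LinearMap.det (ρ.ρ i) - 1 = (LinearMap.det (ρ.ρ i) - (c' : T)) + ((c' : T) - 1) := by
        ring
      rw [h6]
      exact Ideal.add_mem _ hd' h5
  have hkrull := Ideal.iInf_pow_eq_bot_of_isLocalRing (IsLocalRing.maximalIdeal T)
    (Ideal.IsPrime.ne_top inferInstance)
  have htr : LinearMap.trace T ρ.V (ρ.ρ i) = 2 := by
    have : LinearMap.trace T ρ.V (ρ.ρ i) - 2 ∈ (⨅ k, IsLocalRing.maximalIdeal T ^ k : Ideal T) := by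
      rw [Ideal.mem_iInf]
      exact fun k => (key k).1
    rw [hkrull, Ideal.mem_bot, sub_eq_zero] at this
    exact this
  have hdet : LinearMap.det (ρ.ρ i) = 1 := by
    have : LinearMap.det (ρ.ρ i) - 1 ∈ (⨅ k, IsLocalRing.maximalIdeal T ^ k : Ideal T) := by
      rw [Ideal.mem_iInf]
      exact fun k => (key k).2
    rw [hkrull, Ideal.mem_bot, sub_eq_zero] at this
    exact this
  rw [charpoly_eq_of_finrank_two ρ.finrank_eq, htr, hdet]
  simp only [map_ofNat, map_one]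
  ring

end Main

end Fermat.Agent.GAL.S31
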