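import Fermat.Agent.GAL.S31.Bridge
import Fermat.Agent.GAL.S31.Unipotent
import Fermat.Agent.Lib.FrobDensity.GALInterface
import Fermat.Prelude.Def_GaloisRep_LocalConditions

/-!
# S34 from an Eichler--Shimura datum on which inertia at `q` is unipotent

`GeomInputUnip` is what the geometric side has to deliver for S34: for `q ∥ N`, `q ≠ p`, an
Eichler--Shimura datum for level `N` (any nonzero auxiliary level `M`) on which every element `σ`
of every inertia group over `q` satisfies `(σ - 1)^2 = 0`.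

`s34_of_geomInputUnip` is then the exact statement S34.
-/

set_option autoImplicit false

namespace Fermat.Agent.GAL.S31

open IsLocalRing CuspForm

/-- The geometric input for S34 (Picard--Lefschetz for `J₀` at a prime of multiplicative
reduction). -/
def GeomInputUnip : Prop :=
  ∀ (N p : ℕ) [NeZero N] [Fact p.Prime] (q : ℕ), q.Prime → q ≠ p → q ∣ N → ¬ q ^ 2 ∣ N →
    ∃ (M : ℕ) (_ : M ≠ 0) (D : ESDatumAt N M p),
      ∀ P : ValuationSubring (AlgebraicClosure ℚ), P.LiesOverPrime q →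
        ∀ σ ∈ P.inertiaSubgroupIn ℚ, (D.ρ σ - 1) * (D.ρ σ - 1) = 0

theorem s34_of_geomInputUnip (hgeom : GeomInputUnip)
    {𝒪 : Type} [CommRing 𝒪] [IsDomain 𝒪] [IsDiscreteValuationRing 𝒪]
    [IsAdicComplete (maximalIdeal 𝒪) 𝒪] [Finite (ResidueField 𝒪)] [CharZero 𝒪]
    {p : ℕ} (hp : p.Prime) (hp𝒪 : (p : 𝒪) ∈ maximalIdeal 𝒪)
    {N : ℕ} [NeZero N] {S : Finset ℕ} (hpS : p ∈ S) (hNS : ∀ q : ℕ, q.Prime → q ∣ N → q ∈ S)
    {θ : CuspForm.heckeAlgebra N 2 (↑S : Set ℕ) →+* ResidueField 𝒪}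
    {T : Type} [CommRing T] [IsLocalRing T] [IsNoetherianRing T]
    [IsAdicComplete (maximalIdeal T) T] [Algebra 𝒪 T] [IsLocalHom (algebraMap 𝒪 T)]
    [Module.Finite 𝒪 T] [Module.Free 𝒪 T]
    (H : CuspForm.HeckeGaloisRepDatum N (↑S : Set ℕ) 𝒪 θ T)
    (q : ℕ) (hq : q.Prime) (hqp : q ≠ p) (hqN : q ∣ N) (hq2 : ¬ q ^ 2 ∣ N) :
    H.ρ.IsUnipotentOnInertiaAt q := by
  have : Fact p.Prime := ⟨hp⟩
  obtain ⟨M, hM, D, hD⟩ := hgeom N p q hq hqp hqN hq2
  intro P hP i hi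
  have hqpK : ∀ K : ℕ, ¬ q ∣ p ^ K := by
    intro K hd
    exact hqp ((Nat.prime_dvd_prime_iff_eq hq hp).mp (hq.dvd_of_dvd_pow hd))
  refine charpoly_eq_of_levelData (p := p) (S := S ∪ M.primeFactors) (X := FreeAlgebra.ι ℤ)
    (actL := (matEnd ℤ D.r).comp (toMat D S).toRingHom) H.ρ
    (H.π.comp (toHecke (N := N) S M).toRingHom) hp ?_ (Finset.mem_union_left _ hpS) ?_ ?_
    (frobDense_of_frobeniusDensity Fermat.Agent.Lib.FrobDensity.gal_frobeniusDensity _) i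
    (fun K ζ hζ => inertia_apply_root P hq hP hi (hqpK K) hζ)
    (fun K => ⟨levelDatum D S hM hpS hNS K, ?_⟩)
  · have := map_nonunit (algebraMap 𝒪 T) (p : 𝒪) hp𝒪
    rwa [map_natCast] at this
  · intro ℓ hℓ hℓS A hA σ hσ
    have hℓS₀ : ℓ ∉ S := fun h => hℓS (Finset.mem_union_left _ h)
    have hℓN : ¬ ℓ ∣ N := fun h => hℓS₀ (hNS ℓ hℓ h)
    have hℓS' : ℓ ∉ (↑S : Set ℕ) := by simpa using hℓS₀
    rw [H.charpoly_frob ℓ hℓ hℓN hℓS' A hA σ hσ, RingHom.comp_apply]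
    have : (toHecke (N := N) S M).toRingHom (FreeAlgebra.ι ℤ ℓ) = heckeAlgebra.T hℓ hℓN hℓS' :=
      toHecke_ι S hℓ hℓN hℓS' (not_dvd_of_notMem S hM hℓ hℓS)
    rw [this]
  · intro t ht
    have h1 : toMat D S t = 0 := by
      apply matEnd_injective D.r
      rw [map_zero]
      exact ht
    rw [RingHom.comp_apply]
    have : (toHecke (N := N) S M).toRingHom t = 0 := toHecke_eq_zero_of_toMat D S t h1
    rw [this, map_zero]
  · have h1 := congrArg ((matEnd (ZMod (p ^ K)) D.r).comp (PadicInt.toZModPow K).mapMatrix)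
      (hD P hP i hi)
    rw [map_mul, map_sub, map_one, map_zero] at h1
    exact h1

end Fermat.Agent.GAL.S31
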